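import Fermat.Agent.S55.NIT.Adapt.Defs

/-!
# S55 / NIT / Adapt, node AD-10: `IsBaseChange'` for fields of equal degree  (owner helper247)
-/

set_option autoImplicit false

namespace Fermat.Agent.S55.NIT.Adapt

open IsDedekindDomain NumberField WithZero Fermat.Agent.S55.NIT

variable {K : Type*} [Field K] [NumberField K] {Kh : Type*} [Field Kh] [Algebra K Kh]

variable {L : Type*} [Field L] [NumberField L] [Algebra K L]

/-- AD-10 (file BaseChange.lean). How to get `IsBaseChange'` for fields: equal degrees and `Lh` is
generated by `L` over `Kh`. -/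
theorem isBaseChange'_of_finrank_eq {Lf : Type*} [Field Lf] [Algebra Kh Lf] [Algebra L Lf]
    [Algebra K Lf] [IsScalarTower K Kh Lf] [IsScalarTower K L Lf]
    (hdeg : Module.finrank Kh Lf = Module.finrank K L)
    (hgen : Algebra.adjoin Kh (Set.range (algebraMap L Lf)) = ⊤) :
    IsBaseChange' K L Kh Lf := by
  have hfin : FiniteDimensional K L := Module.Finite.of_restrictScalars_finite ℚ K L
  let b := Module.finBasis K L
  have hspan : (⊤ : Submodule Kh Lf) ≤
      Submodule.span Kh (Set.range fun i => algebraMap L Lf (b i)) := by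
    have h1 : (Algebra.adjoin Kh (Set.range (algebraMap L Lf))).toSubmodule =
        Submodule.span Kh (Set.range (algebraMap L Lf)) := by
      rw [Algebra.adjoin_eq_span]
      congr 1
      have : Set.range (algebraMap L Lf) = (MonoidHom.mrange (algebraMap L Lf : L →* Lf) : Set Lf) := rfl
      rw [this, Submonoid.closure_eq]
    rw [hgen, Algebra.top_toSubmodule] at h1
    rw [h1, Submodule.span_le]
    rintro _ ⟨y, rfl⟩
    rw [← b.sum_repr y, map_sum]
    refine Submodule.sum_mem _ fun i _ => ?_
    have h2 : algebraMap L Lf (b.repr y i • b i) =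
        algebraMap K Kh (b.repr y i) • algebraMap L Lf (b i) := by
      rw [Algebra.smul_def, map_mul, ← IsScalarTower.algebraMap_apply K L Lf,
        IsScalarTower.algebraMap_apply K Kh Lf, Algebra.smul_def]
    rw [h2]
    exact Submodule.smul_mem _ _ (Submodule.subset_span ⟨i, rfl⟩)
  refine ⟨Fin (Module.finrank K L), inferInstance, b,
    basisOfTopLeSpanOfCardEqFinrank (fun i => algebraMap L Lf (b i)) hspan
      (by rw [Fintype.card_fin, hdeg]), fun i => ?_⟩
  rw [coe_basisOfTopLeSpanOfCardEqFinrank]

end Fermat.Agent.S55.NIT.Adapt
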