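import Fermat.Agent.S55.NIT.Adapt.Defs

/-!
# S55 / NIT / Adapt : basic facts (nodes AD-0, AD-0b, AD-0c).   Owner: helper272.
-/

set_option autoImplicit false

namespace Fermat.Agent.S55.NIT.Adapt

open IsDedekindDomain NumberField WithZero Fermat.Agent.S55.NIT

variable {K : Type*} [Field K] [NumberField K] {v : Pl K} {Kh : Type*} [Field Kh] [Algebra K Kh]

/-- AD-0 (file Basic.lean). Multiplicative density. -/
theorem exists_unit_close (E : DenseExt v Kh) (ξ : Kh) (hξ : ξ ≠ 0) (n : ℕ) :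
    ∃ x : Kˣ, E.vh (ξ / algebraMap K Kh (x : K) - 1) < exp (-(n : ℤ)) := by
  have hv0 : E.vh ξ ≠ 0 := (Valuation.ne_zero_iff _).mpr hξ
  set k : ℤ := log (E.vh ξ) with hk
  have hvk : E.vh ξ = exp k := (exp_log hv0).symm
  obtain ⟨x, hx⟩ := E.dense ξ (n + k.natAbs)
  have hlt : E.vh (ξ - algebraMap K Kh x) < E.vh ξ := by
    refine lt_of_lt_of_le hx ?_
    rw [hvk, exp_le_exp]
    push_cast
    have := neg_abs_le k
    omega
  have hvx : E.vh (algebraMap K Kh x) = E.vh ξ := by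
    have h1 := Valuation.map_sub_eq_of_lt_left E.vh hlt
    rwa [sub_sub_cancel] at h1
  have hx0' : algebraMap K Kh x ≠ 0 := (Valuation.ne_zero_iff E.vh).mp (hvx ▸ hv0)
  have hx0 : x ≠ 0 := by
    rintro rfl
    exact hx0' (map_zero _)
  refine ⟨Units.mk0 x hx0, ?_⟩
  have e : ξ / algebraMap K Kh x - 1 = (ξ - algebraMap K Kh x) / algebraMap K Kh x := by
    field_simp
  rw [Units.val_mk0, e, map_div₀, hvx, hvk, div_lt_iff₀ (exp_pos), ← exp_add]
  refine lt_of_lt_of_le hx ?_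
  rw [exp_le_exp]
  push_cast
  have := neg_abs_le k
  omega

/-- AD-0b (file Basic.lean). `1 + 𝔪^(n+1)` is stable under powers. -/
theorem vh_pow_sub_one_lt (E : DenseExt v Kh) (t : Kh) (n p : ℕ)
    (ht : E.vh (t - 1) < exp (-(n : ℤ))) : E.vh (t ^ p - 1) < exp (-(n : ℤ)) := by
  have hle : exp (-(n : ℤ)) ≤ (1 : ℤᵐ⁰) := by
    rw [← exp_zero, exp_le_exp]; omega
  have ht1 : E.vh t = 1 := by
    have h1 : E.vh (t - 1) < E.vh (1 : Kh) := by rw [map_one]; exact lt_of_lt_of_le ht hle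
    have := Valuation.map_add_eq_of_lt_right E.vh h1
    rwa [sub_add_cancel, map_one] at this
  induction p with
  | zero => simp
  | succ p ih =>
    have e : t ^ (p + 1) - 1 = t ^ p * (t - 1) + (t ^ p - 1) := by ring
    rw [e]
    refine lt_of_le_of_lt (Valuation.map_add _ _ _) (max_lt ?_ ih)
    rwa [map_mul, map_pow, ht1, one_pow, one_mul]

/-- AD-0c (file Basic.lean). Membership in `pu` read in `Kh`. -/
theorem mem_pu_iff (E : DenseExt v Kh) (x : Kˣ) (n : ℕ) :
    x ∈ pu v n ↔ E.vh (algebraMap K Kh (x : K) - 1) < exp (-(n : ℤ)) := by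
  rw [mem_pu, ← E.vh_map, map_sub, map_one]

end Fermat.Agent.S55.NIT.Adapt
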