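import Fermat.Agent.S55.NIT.Adapt.Defs

/-!
# S55 / NIT / Adapt : nodes AD-5a, AD-5b

Polynomial maps are continuous for a valuation; the norm of a finite free algebra is a polynomial
in the coordinates.
-/

set_option autoImplicit false

namespace Fermat.Agent.S55.NIT.Adapt

open WithZero

/-- every element of `ℤᵐ⁰` is bounded by `exp B` with `B` a natural number. -/
theorem exists_le_exp_nat (x : ℤᵐ⁰) : ∃ B : ℕ, x ≤ exp (B : ℤ) := by
  by_cases hx : x = 0
  · exact ⟨0, by rw [hx]; exact zero_le⟩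
  · refine ⟨(log x).toNat, ?_⟩
    rw [← exp_log hx, exp_le_exp]
    exact Int.self_le_toNat _

/-- AD-5a (file Cont.lean). Polynomial maps are continuous for a valuation. -/
theorem mvPolynomial_continuous {F : Type*} [Field F] (w : Valuation F ℤᵐ⁰) {ι : Type} [Fintype ι]
    (P : MvPolynomial ι F) (c : ι → F) (n : ℕ) :
    ∃ m : ℕ, ∀ c' : ι → F, (∀ i, w (c' i - c i) < exp (-(m : ℤ))) →
      w (MvPolynomial.eval c' P - MvPolynomial.eval c P) < exp (-(n : ℤ)) := by
  induction P using MvPolynomial.induction_on generalizing n with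
  | C a =>
    refine ⟨0, fun c' _ => ?_⟩
    rw [MvPolynomial.eval_C, MvPolynomial.eval_C, sub_self, map_zero]
    exact exp_pos
  | add P Q hP hQ =>
    obtain ⟨m₁, h₁⟩ := hP n
    obtain ⟨m₂, h₂⟩ := hQ n
    refine ⟨max m₁ m₂, fun c' hc' => ?_⟩
    have e₁ : exp (-((max m₁ m₂ : ℕ) : ℤ)) ≤ exp (-(m₁ : ℤ)) := by
      rw [exp_le_exp]
      have : m₁ ≤ max m₁ m₂ := le_max_left _ _
      omega
    have e₂ : exp (-((max m₁ m₂ : ℕ) : ℤ)) ≤ exp (-(m₂ : ℤ)) := by
      rw [exp_le_exp]
      have : m₂ ≤ max m₁ m₂ := le_max_right _ _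
      omega
    have k₁ := h₁ c' (fun i => lt_of_lt_of_le (hc' i) e₁)
    have k₂ := h₂ c' (fun i => lt_of_lt_of_le (hc' i) e₂)
    have : MvPolynomial.eval c' (P + Q) - MvPolynomial.eval c (P + Q) =
        (MvPolynomial.eval c' P - MvPolynomial.eval c P) +
          (MvPolynomial.eval c' Q - MvPolynomial.eval c Q) := by
      rw [map_add, map_add]
      ring
    rw [this]
    exact lt_of_le_of_lt (w.map_add _ _) (max_lt k₁ k₂)
  | mul_X P i hP =>
    obtain ⟨B, hB⟩ := exists_le_exp_nat (w (c i))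
    obtain ⟨B', hB'⟩ := exists_le_exp_nat (w (MvPolynomial.eval c P))
    obtain ⟨m₁, h₁⟩ := hP (n + B)
    refine ⟨max m₁ (n + B'), fun c' hc' => ?_⟩
    have e₁ : exp (-((max m₁ (n + B') : ℕ) : ℤ)) ≤ exp (-(m₁ : ℤ)) := by
      rw [exp_le_exp]
      have : m₁ ≤ max m₁ (n + B') := le_max_left _ _
      omega
    have e₂ : exp (-((max m₁ (n + B') : ℕ) : ℤ)) ≤ exp (-((n + B' : ℕ) : ℤ)) := by
      rw [exp_le_exp]
      have : n + B' ≤ max m₁ (n + B') := le_max_right _ _
      omega
    have k₁ := h₁ c' (fun i => lt_of_lt_of_le (hc' i) e₁)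
    have k₂ := lt_of_lt_of_le (hc' i) e₂
    -- bound for `c' i`
    have hci : w (c' i) ≤ exp (B : ℤ) := by
      have h0 : c' i = (c' i - c i) + c i := by ring
      rw [h0]
      refine le_trans (w.map_add _ _) (max_le ?_ hB)
      refine le_trans k₂.le ?_
      rw [exp_le_exp]
      omega
    have : MvPolynomial.eval c' (P * MvPolynomial.X i) - MvPolynomial.eval c (P * MvPolynomial.X i)
        = (MvPolynomial.eval c' P - MvPolynomial.eval c P) * c' i +
          MvPolynomial.eval c P * (c' i - c i) := by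
      rw [map_mul, map_mul, MvPolynomial.eval_X, MvPolynomial.eval_X]
      ring
    rw [this]
    refine lt_of_le_of_lt (w.map_add _ _) (max_lt ?_ ?_)
    · rw [map_mul]
      have h3 : exp (-(n : ℤ)) = exp (-((n + B : ℕ) : ℤ)) * exp (B : ℤ) := by
        rw [← exp_add]
        congr 1
        push_cast
        ring
      rw [h3]
      exact mul_lt_mul_of_lt_of_le_of_nonneg_of_pos k₁ hci zero_le exp_pos
    · rw [map_mul]
      have h3 : exp (-(n : ℤ)) = exp (B' : ℤ) * exp (-((n + B' : ℕ) : ℤ)) := by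
        rw [← exp_add]
        congr 1
        push_cast
        ring
      rw [h3]
      exact mul_lt_mul_of_le_of_lt_of_nonneg_of_pos hB' k₂ zero_le exp_pos

/-- AD-5b (file Cont.lean). The norm of a finite free algebra is a polynomial in the coordinates. -/
theorem exists_norm_polynomial {F A : Type*} [Field F] [CommRing A] [Algebra F A] {ι : Type}
    [Fintype ι] (b : Module.Basis ι F A) :
    ∃ P : MvPolynomial ι F, ∀ c : ι → F, Algebra.norm F (∑ i, c i • b i) = MvPolynomial.eval c P := by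
  classical
  refine ⟨(∑ i, (MvPolynomial.X i : MvPolynomial ι F) •
    (Algebra.leftMulMatrix b (b i)).map (MvPolynomial.C : F →+* MvPolynomial ι F)).det, fun c => ?_⟩
  rw [Algebra.norm_eq_matrix_det b, RingHom.map_det]
  congr 1
  rw [map_sum, map_sum]
  refine Finset.sum_congr rfl (fun i _ => ?_)
  rw [map_smul]
  ext j k
  simp [Matrix.map_apply]

end Fermat.Agent.S55.NIT.Adapt
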