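import Fermat.Agent.S55.NIT.Defs

/-!
# S55 / NIT / Adapt : abstract adapters between the approximation groups `locPow`, `locNorm`
(subgroups of `Kˣ`, `K` a number field) and ANY valued overfield `Kh ⊇ K` in which `K` is dense
(henselisation inside `ℚ̄`, completion, ...).  Mathlib + `NIT/Defs.lean` only.
-/

set_option autoImplicit false

namespace Fermat.Agent.S55.NIT.Adapt

open IsDedekindDomain NumberField WithZero Fermat.Agent.S55.NIT

/-- A valued overfield `Kh` of `K`, whose valuation extends `v`, in which `K` is dense. -/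
structure DenseExt {K : Type*} [Field K] [NumberField K] (v : Pl K) (Kh : Type*) [Field Kh]
    [Algebra K Kh] where
  /-- the valuation of `Kh` -/
  vh : Valuation Kh ℤᵐ⁰
  vh_map : ∀ x : K, vh (algebraMap K Kh x) = v.valuation K x
  dense : ∀ (ξ : Kh) (n : ℕ), ∃ x : K, vh (ξ - algebraMap K Kh x) < exp (-(n : ℤ))

/-- Hensel: elements of `Kh` close to `1` are `p`-th powers. -/
def HenselPow {K : Type*} [Field K] [NumberField K] {v : Pl K} {Kh : Type*} [Field Kh]
    [Algebra K Kh] (E : DenseExt v Kh) (p : ℕ) : Prop :=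
  ∃ n : ℕ, ∀ u : Kh, E.vh (u - 1) < exp (-(n : ℤ)) → ∃ y : Kh, y ^ p = u

/-- `Lh = Kh ⊗_K L` (a finite `Kh`-algebra, NOT necessarily a field), in basis form. -/
def IsBaseChange' (K L Kh Lh : Type*) [Field K] [Field L] [Algebra K L] [Field Kh] [Algebra K Kh]
    [CommRing Lh] [Algebra Kh Lh] [Algebra L Lh] : Prop :=
  ∃ (ι : Type) (_ : Fintype ι) (b : Module.Basis ι K L) (bh : Module.Basis ι Kh Lh),
    ∀ i, bh i = algebraMap L Lh (b i)

/-- The norm group of `Lh/Kh` is open. -/
def NormOpen {K : Type*} [Field K] [NumberField K] {v : Pl K} {Kh : Type*} [Field Kh]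
    [Algebra K Kh] (E : DenseExt v Kh) (Lh : Type*) [CommRing Lh] [Algebra Kh Lh] : Prop :=
  ∃ n : ℕ, ∀ u : Kh, E.vh (u - 1) < exp (-(n : ℤ)) → ∃ y : Lh, Algebra.norm Kh y = u

end Fermat.Agent.S55.NIT.Adapt
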