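import Fermat.Agent.S55.NIT.Adapt.Defs

/-!
# S55 / NIT / Adapt, node AD-4 (owner helper193): the norm commutes with base change
-/

set_option autoImplicit false

namespace Fermat.Agent.S55.NIT.Adapt

open IsDedekindDomain NumberField WithZero Fermat.Agent.S55.NIT Fermat.Agent.S55.NIT.Adapt

variable {K : Type*} [Field K] [NumberField K] {v : Pl K} {Kh : Type*} [Field Kh] [Algebra K Kh]

section Norm

variable {L : Type*} [Field L] [NumberField L] [Algebra K L]
  {Lh : Type*} [CommRing Lh] [Algebra Kh Lh] [Algebra L Lh] [Algebra K Lh]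
  [IsScalarTower K Kh Lh] [IsScalarTower K L Lh]

/-- AD-4 (file NormBC.lean). The norm commutes with base change.  Proof:
`Algebra.norm_eq_matrix_det` for `b` and `bh`; the matrix of `algebraMap L Lh y` in `bh` is the
image of the matrix of `y` in `b`; `RingHom.map_det`. -/
theorem norm_baseChange (hBC : IsBaseChange' K L Kh Lh) (y : L) :
    Algebra.norm Kh (algebraMap L Lh y) = algebraMap K Kh (Algebra.norm K y) := by
  classical
  obtain ⟨ι, _, b, bh, h⟩ := hBC
  rw [Algebra.norm_eq_matrix_det bh, Algebra.norm_eq_matrix_det b, RingHom.map_det]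
  congr 1
  ext i j
  rw [Algebra.leftMulMatrix_eq_repr_mul, RingHom.mapMatrix_apply, Matrix.map_apply,
    Algebra.leftMulMatrix_eq_repr_mul, h j, ← map_mul]
  have h1 : algebraMap L Lh (y * b j) =
      ∑ k, algebraMap K Kh (b.repr (y * b j) k) • bh k := by
    conv_lhs => rw [← b.sum_repr (y * b j)]
    rw [map_sum]
    refine Finset.sum_congr rfl fun k _ => ?_
    rw [h k, algebraMap_smul, ← IsScalarTower.toAlgHom_apply K L Lh, map_smul,
      IsScalarTower.toAlgHom_apply]
  rw [h1, bh.repr_sum_self]

end Norm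

end Fermat.Agent.S55.NIT.Adapt
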