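import Fermat.Agent.S55.NIT.Adapt.Defs
import Fermat.Agent.S55.NIT.Adapt.NormBC
import Fermat.Agent.S55.NIT.Adapt.Cont

/-!
# S55 / NIT / Adapt, node AD-5: norms of global elements are dense in the norms from `Lh`.
Owner: helper205.
-/

set_option autoImplicit false

namespace Fermat.Agent.S55.NIT.Adapt

open IsDedekindDomain NumberField WithZero Fermat.Agent.S55.NIT

variable {K : Type*} [Field K] [NumberField K] {v : Pl K} {Kh : Type*} [Field Kh] [Algebra K Kh]

section Norm

variable {L : Type*} [Field L] [NumberField L] [Algebra K L]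
  {Lh : Type*} [CommRing Lh] [Algebra Kh Lh] [Algebra L Lh] [Algebra K Lh]
  [IsScalarTower K Kh Lh] [IsScalarTower K L Lh]

omit [NumberField L] in
/-- AD-5 from the statements of AD-4, AD-5a, AD-5b. -/
theorem exists_norm_close_aux (E : DenseExt v Kh) (hBC : IsBaseChange' K L Kh Lh)
    (h4 : ∀ y : L, Algebra.norm Kh (algebraMap L Lh y) = algebraMap K Kh (Algebra.norm K y))
    (h5a : ∀ {ι : Type} [Fintype ι] (P : MvPolynomial ι Kh) (c : ι → Kh) (n : ℕ),
      ∃ m : ℕ, ∀ c' : ι → Kh, (∀ i, E.vh (c' i - c i) < exp (-(m : ℤ))) →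
        E.vh (MvPolynomial.eval c' P - MvPolynomial.eval c P) < exp (-(n : ℤ)))
    (h5b : ∀ {ι : Type} [Fintype ι] (b : Module.Basis ι Kh Lh),
      ∃ P : MvPolynomial ι Kh, ∀ c : ι → Kh,
        Algebra.norm Kh (∑ i, c i • b i) = MvPolynomial.eval c P)
    (η : Lh) (n : ℕ) :
    ∃ y : L, E.vh (Algebra.norm Kh η - algebraMap K Kh (Algebra.norm K y)) < exp (-(n : ℤ)) := by
  obtain ⟨ι, _, b, bh, hb⟩ := hBC
  obtain ⟨P, hP⟩ := h5b bh
  obtain ⟨m, hm⟩ := h5a P (fun i => bh.repr η i) n
  choose x hx using fun i => E.dense (bh.repr η i) m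
  refine ⟨∑ i, x i • b i, ?_⟩
  have h1 : algebraMap L Lh (∑ i, x i • b i) = ∑ i, algebraMap K Kh (x i) • bh i := by
    rw [map_sum]
    refine Finset.sum_congr rfl fun i _ => ?_
    rw [hb, algebraMap_smul, Algebra.smul_def, map_mul, ← IsScalarTower.algebraMap_apply,
      Algebra.smul_def]
  have h2 : Algebra.norm Kh η = MvPolynomial.eval (fun i => bh.repr η i) P := by
    rw [← hP, bh.sum_repr]
  rw [← h4, h1, hP, h2, Valuation.map_sub_swap]
  refine hm _ fun i => ?_
  rw [Valuation.map_sub_swap]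
  exact hx i

/-- AD-5 (file NormDense.lean). Norms of global elements are dense in the norms from `Lh`. -/
theorem exists_norm_close (E : DenseExt v Kh) (hBC : IsBaseChange' K L Kh Lh) (η : Lh) (n : ℕ) :
    ∃ y : L, E.vh (Algebra.norm Kh η - algebraMap K Kh (Algebra.norm K y)) < exp (-(n : ℤ)) :=
  exists_norm_close_aux E hBC (norm_baseChange hBC)
    (fun P c n => mvPolynomial_continuous E.vh P c n) (fun b => exists_norm_polynomial b) η n

end Norm

end Fermat.Agent.S55.NIT.Adapt
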