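import Fermat.Agent.S55.NIT.Adapt.Basic
import Fermat.Agent.S55.NIT.Adapt.NormBC
import Fermat.Agent.S55.NIT.Adapt.NormDense

/-!
# S55 / NIT / Adapt / Norm : `locNorm` read in a dense valued overfield (nodes AD-6 .. AD-9)
-/

set_option autoImplicit false

namespace Fermat.Agent.S55.NIT.Adapt

open IsDedekindDomain NumberField WithZero Fermat.Agent.S55.NIT Fermat.Agent.S55.NIT.Adapt

variable {K : Type*} [Field K] [NumberField K] {v : Pl K} {Kh : Type*} [Field Kh] [Algebra K Kh]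

section Norm

variable {L : Type*} [Field L] [NumberField L] [Algebra K L]
  {Lh : Type*} [CommRing Lh] [Algebra Kh Lh] [Algebra L Lh] [Algebra K Lh]
  [IsScalarTower K Kh Lh] [IsScalarTower K L Lh]

/-- For a nonzero element `a` of `ℤᵐ⁰` and `n`, some `exp (-m)` is at most `a * exp (-n)`. -/
private theorem exists_exp_le_mul (a : ℤᵐ⁰) (ha : a ≠ 0) (n : ℕ) :
    ∃ m : ℕ, exp (-(m : ℤ)) ≤ a * exp (-(n : ℤ)) := by
  obtain ⟨k, rfl⟩ : ∃ k : ℤ, a = exp k := ⟨log a, (exp_log ha).symm⟩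
  refine ⟨(n - k).toNat, ?_⟩
  rw [← exp_add, exp_le_exp]
  have := Int.self_le_toNat (n - k)
  omega

/-- An element of a finite free algebra over a field whose norm is nonzero is a unit. -/
private theorem isUnit_of_norm_ne_zero (hBC : IsBaseChange' K L Kh Lh) (y : Lh)
    (hy : Algebra.norm Kh y ≠ 0) : IsUnit y := by
  obtain ⟨ι, _, b, bh, -⟩ := hBC
  have : Module.Finite Kh Lh := Module.Finite.of_basis bh
  have h1 : IsUnit (LinearMap.det (Algebra.lmul Kh Lh y)) := by
    rw [← Algebra.norm_apply]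
    exact isUnit_iff_ne_zero.2 hy
  have h2 : IsUnit (Algebra.lmul Kh Lh y) := (LinearMap.isUnit_iff_isUnit_det _).2 h1
  obtain ⟨z, hz⟩ : ∃ z, Algebra.lmul Kh Lh y z = 1 :=
    ((Module.End.isUnit_iff _).1 h2).2 1
  exact IsUnit.of_mul_eq_one z (by simpa using hz)

/-- AD-6 (file Norm.lean). -/
theorem mem_locNorm_iff (E : DenseExt v Kh) (hBC : IsBaseChange' K L Kh Lh) (hO : NormOpen E Lh)
    (x : Kˣ) : x ∈ locNorm K L v ↔ ∃ y : Lh, Algebra.norm Kh y = algebraMap K Kh (x : K) := by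
  constructor
  · intro hx
    obtain ⟨n, hn⟩ := hO
    obtain ⟨y, hy⟩ := mem_locNorm.1 hx n
    rw [mem_pu_iff E] at hy
    obtain ⟨z, hz⟩ := hn _ hy
    refine ⟨z * algebraMap L Lh (y : L), ?_⟩
    rw [map_mul, hz, norm_baseChange hBC, ← map_mul]
    congr 1
    have hne : Algebra.norm K (y : L) ≠ 0 :=
      (Units.map (Algebra.norm K : L →* K) y).ne_zero
    rw [Units.val_div_eq_div_val, Units.coe_map]
    exact div_mul_cancel₀ _ hne
  · rintro ⟨η, hη⟩
    rw [mem_locNorm]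
    intro n
    have hx0 : v.valuation K (x : K) ≠ 0 := (Valuation.ne_zero_iff _).2 x.ne_zero
    obtain ⟨m, hm⟩ := exists_exp_le_mul _ hx0 n
    obtain ⟨y, hy⟩ := exists_norm_close E hBC η m
    rw [hη, ← map_sub, E.vh_map] at hy
    have hlt : v.valuation K ((x : K) - Algebra.norm K y) < v.valuation K (x : K) * exp (-(n : ℤ)) :=
      lt_of_lt_of_le hy hm
    have hle : exp (-(n : ℤ)) ≤ (1 : ℤᵐ⁰) := by
      rw [← exp_zero, exp_le_exp]; omega
    have hlt' : v.valuation K ((x : K) - Algebra.norm K y) < v.valuation K (x : K) :=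
      lt_of_lt_of_le hlt (mul_le_of_le_one_right' hle)
    have hval : v.valuation K (Algebra.norm K y) = v.valuation K (x : K) := by
      have := Valuation.map_sub_eq_of_lt_right (v.valuation K) (x := (x : K) - Algebra.norm K y)
        (y := (x : K)) hlt'
      rw [sub_sub_cancel_left, Valuation.map_neg] at this
      exact this
    have hN0 : Algebra.norm K y ≠ 0 := by
      rw [← Valuation.ne_zero_iff (v.valuation K), hval]; exact hx0
    have hy0 : y ≠ 0 := by
      rintro rfl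
      exact hN0 (by simp)
    refine ⟨Units.mk0 y hy0, ?_⟩
    rw [mem_pu, Units.val_div_eq_div_val, Units.coe_map]
    have e : (x : K) / (Algebra.norm K : L →* K) ((Units.mk0 y hy0 : Lˣ) : L) - 1
        = ((x : K) - Algebra.norm K y) / Algebra.norm K y := by
      simp only [Units.val_mk0]
      field_simp
    rw [e, map_div₀, hval]
    exact (div_lt_iff₀' (zero_lt_iff.2 hx0)).2 hlt

/-- AD-6b (file Norm.lean). Hensel gives openness of the norm group in degree `p`. -/
theorem normOpen_of_henselPow (E : DenseExt v Kh) {p : ℕ} (hH : HenselPow E p)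
    (hdeg : Module.finrank Kh Lh = p) : NormOpen E Lh := by
  obtain ⟨n, hn⟩ := hH
  refine ⟨n, fun u hu => ?_⟩
  obtain ⟨y, hy⟩ := hn u hu
  exact ⟨algebraMap Kh Lh y, by rw [Algebra.norm_algebraMap, hdeg, hy]⟩

/-- AD-7 (file Norm.lean). -/
theorem exists_mul_norm_eq (E : DenseExt v Kh) (hO : NormOpen E Lh) (ξ : Kh) (hξ : ξ ≠ 0) :
    ∃ (x : Kˣ) (y : Lh), ξ = algebraMap K Kh (x : K) * Algebra.norm Kh y := by
  obtain ⟨n, hn⟩ := hO
  obtain ⟨x, hx⟩ := exists_unit_close E ξ hξ n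
  obtain ⟨y, hy⟩ := hn _ hx
  refine ⟨x, y, ?_⟩
  have hx0 : algebraMap K Kh (x : K) ≠ 0 := by
    simp
  rw [hy, mul_div_cancel₀ _ hx0]

/-- AD-8 (file Norm.lean). `Kˣ / locNorm ≃ Khˣ / N Lhˣ`. -/
theorem index_locNorm (E : DenseExt v Kh) (hBC : IsBaseChange' K L Kh Lh) (hO : NormOpen E Lh) :
    (locNorm K L v).index = ((Units.map (Algebra.norm Kh : Lh →* Kh)).range).index := by
  set f : Kˣ →* Khˣ := Units.map (algebraMap K Kh : K →* Kh) with hf
  set H : Subgroup Khˣ := (Units.map (Algebra.norm Kh : Lh →* Kh)).range with hH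
  have h1 : locNorm K L v = H.comap f := by
    ext x
    rw [mem_locNorm_iff E hBC hO, Subgroup.mem_comap]
    constructor
    · rintro ⟨y, hy⟩
      have hy0 : Algebra.norm Kh y ≠ 0 := by
        rw [hy]; simp
      obtain ⟨u, rfl⟩ := isUnit_of_norm_ne_zero hBC y hy0
      exact ⟨u, Units.ext hy⟩
    · rintro ⟨u, hu⟩
      exact ⟨(u : Lh), congrArg Units.val hu⟩
  have h2 : H ⊔ f.range = ⊤ := by
    rw [eq_top_iff]
    intro ξ _
    obtain ⟨x, y, hxy⟩ := exists_mul_norm_eq E hO (ξ : Kh) ξ.ne_zero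
    have hy0 : Algebra.norm Kh y ≠ 0 := by
      intro h0
      rw [h0, mul_zero] at hxy
      exact ξ.ne_zero hxy
    obtain ⟨u, rfl⟩ := isUnit_of_norm_ne_zero hBC y hy0
    have : ξ = Units.map (Algebra.norm Kh : Lh →* Kh) u * f x := by
      ext
      rw [hxy, mul_comm]
      rfl
    rw [this]
    exact Subgroup.mul_mem_sup ⟨u, rfl⟩ ⟨x, rfl⟩
  rw [h1, Subgroup.index_comap, ← Subgroup.relIndex_sup_left, h2, Subgroup.relIndex_top_right]

/-- AD-9 (file Norm.lean). The form needed for `WildInput`. -/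
theorem locNorm_ne_top_of_not_norm (E : DenseExt v Kh) (hBC : IsBaseChange' K L Kh Lh)
    (hO : NormOpen E Lh) (ξ : Kh) (hξ : ξ ≠ 0) (hn : ∀ y : Lh, Algebra.norm Kh y ≠ ξ) :
    locNorm K L v ≠ ⊤ := by
  intro htop
  obtain ⟨x, y, hxy⟩ := exists_mul_norm_eq E hO ξ hξ
  have hx : x ∈ locNorm K L v := by rw [htop]; trivial
  obtain ⟨z, hz⟩ := (mem_locNorm_iff E hBC hO x).1 hx
  exact hn (z * y) (by rw [map_mul, hz, hxy])

end Norm

end Fermat.Agent.S55.NIT.Adapt
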