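/-
S55 / NIT / Adapt, nodes AD-1, AD-2, AD-3 : `locPow` read in a dense valued overfield.
-/
import Fermat.Agent.S55.NIT.Adapt.Defs

set_option autoImplicit false

namespace Fermat.Agent.S55.NIT.Adapt

open IsDedekindDomain NumberField WithZero Fermat.Agent.S55.NIT Fermat.Agent.S55.NIT.Adapt

variable {K : Type*} [Field K] [NumberField K] {v : Pl K} {Kh : Type*} [Field Kh] [Algebra K Kh]

/-- private copy of AD-0. -/
theorem Pow.exists_unit_close (E : DenseExt v Kh) (ξ : Kh) (hξ : ξ ≠ 0) (n : ℕ) :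
    ∃ x : Kˣ, E.vh (ξ / algebraMap K Kh (x : K) - 1) < exp (-(n : ℤ)) := by
  have hv0 : E.vh ξ ≠ 0 := (Valuation.ne_zero_iff _).2 hξ
  set a : ℤ := log (E.vh ξ) with ha
  have hva : E.vh ξ = exp a := (exp_log hv0).symm
  obtain ⟨x0, hx0⟩ := E.dense ξ ((n : ℤ) - a).toNat
  have hm : (n : ℤ) - a ≤ (((n : ℤ) - a).toNat : ℤ) := Int.self_le_toNat _
  have hlt : E.vh (ξ - algebraMap K Kh x0) < E.vh ξ := by
    refine lt_of_lt_of_le hx0 ?_
    rw [hva, exp_le_exp]
    omega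
  have hvx : E.vh (algebraMap K Kh x0) = E.vh ξ := by
    have h1 : E.vh (algebraMap K Kh x0 - ξ) < E.vh ξ := by
      rwa [Valuation.map_sub_swap]
    have := Valuation.map_add_eq_of_lt_left E.vh h1
    rwa [add_sub_cancel] at this
  have hx0F : algebraMap K Kh x0 ≠ 0 := (Valuation.ne_zero_iff E.vh).1 (hvx ▸ hv0)
  have hx0K : x0 ≠ 0 := by
    rintro rfl
    exact hx0F (map_zero _)
  refine ⟨Units.mk0 x0 hx0K, ?_⟩
  have e : ξ / algebraMap K Kh x0 - 1 = (ξ - algebraMap K Kh x0) / algebraMap K Kh x0 := by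
    field_simp
  rw [Units.val_mk0, e, map_div₀, hvx, hva]
  rw [div_lt_iff₀ (by simp : (0 : ℤᵐ⁰) < exp a), ← exp_add]
  refine lt_of_lt_of_le hx0 ?_
  rw [exp_le_exp]
  omega

/-- private copy of AD-0b. -/
theorem Pow.vh_pow_sub_one_lt (E : DenseExt v Kh) (t : Kh) (n p : ℕ)
    (ht : E.vh (t - 1) < exp (-(n : ℤ))) : E.vh (t ^ p - 1) < exp (-(n : ℤ)) := by
  have hle : exp (-(n : ℤ)) ≤ (1 : ℤᵐ⁰) := by
    rw [← exp_zero, exp_le_exp]; omega
  have ht1 : E.vh t = 1 := by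
    have h1 : E.vh (t - 1) < E.vh (1 : Kh) := by rw [map_one]; exact lt_of_lt_of_le ht hle
    have := Valuation.map_add_eq_of_lt_left E.vh h1
    rwa [add_sub_cancel, map_one] at this
  induction p with
  | zero => simp
  | succ p ih =>
    have e : t ^ (p + 1) - 1 = t * (t ^ p - 1) + (t - 1) := by ring
    rw [e]
    refine lt_of_le_of_lt (Valuation.map_add _ _ _) (max_lt ?_ ht)
    rwa [map_mul, ht1, one_mul]

/-- private copy of AD-0c. -/
theorem Pow.mem_pu_iff (E : DenseExt v Kh) (x : Kˣ) (n : ℕ) :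
    x ∈ pu v n ↔ E.vh (algebraMap K Kh (x : K) - 1) < exp (-(n : ℤ)) := by
  rw [mem_pu, ← E.vh_map, map_sub, map_one]

/-- AD-1 (file Pow.lean). -/
theorem mem_locPow_iff (E : DenseExt v Kh) {p : ℕ} (hH : HenselPow E p) (x : Kˣ) :
    x ∈ locPow K p v ↔ ∃ y : Kh, y ^ p = algebraMap K Kh (x : K) := by
  rw [mem_locPow]
  constructor
  · intro h
    obtain ⟨n, hn⟩ := hH
    obtain ⟨y0, hy0⟩ := h n
    rw [Pow.mem_pu_iff E] at hy0
    obtain ⟨z, hz⟩ := hn _ hy0
    refine ⟨z * algebraMap K Kh (y0 : K), ?_⟩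
    have hy0F : algebraMap K Kh (y0 : K) ≠ 0 := (map_ne_zero _).2 y0.ne_zero
    have e : ((x / y0 ^ p : Kˣ) : K) = (x : K) / (y0 : K) ^ p := by
      rw [Units.val_div_eq_div_val, Units.val_pow_eq_pow_val]
    rw [mul_pow, hz, e, map_div₀, map_pow]
    field_simp
  · rintro ⟨y, hy⟩ n
    have hxF : algebraMap K Kh (x : K) ≠ 0 := (map_ne_zero _).2 x.ne_zero
    rcases eq_or_ne y 0 with rfl | hy0
    · have hp : p = 0 := by
        by_contra hp
        rw [zero_pow hp] at hy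
        exact hxF hy.symm
      subst hp
      refine ⟨1, ?_⟩
      have hx1 : x = 1 := by
        apply Units.ext
        apply (algebraMap K Kh).injective
        rw [← hy]; simp
      rw [hx1]
      simp
    · obtain ⟨y0, hy0⟩ := Pow.exists_unit_close E y hy0 n
      refine ⟨y0, ?_⟩
      rw [Pow.mem_pu_iff E]
      have := Pow.vh_pow_sub_one_lt E _ n p hy0
      rw [div_pow, hy] at this
      have e : ((x / y0 ^ p : Kˣ) : K) = (x : K) / (y0 : K) ^ p := by
        rw [Units.val_div_eq_div_val, Units.val_pow_eq_pow_val]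
      rwa [e, map_div₀, map_pow]

/-- AD-2 (file Pow.lean). -/
theorem exists_mul_pow_eq (E : DenseExt v Kh) {p : ℕ} (hH : HenselPow E p) (ξ : Kh) (hξ : ξ ≠ 0) :
    ∃ (x : Kˣ) (y : Kh), ξ = algebraMap K Kh (x : K) * y ^ p := by
  obtain ⟨n, hn⟩ := hH
  obtain ⟨x, hx⟩ := Pow.exists_unit_close E ξ hξ n
  obtain ⟨y, hy⟩ := hn _ hx
  refine ⟨x, y, ?_⟩
  have hxF : algebraMap K Kh (x : K) ≠ 0 := (map_ne_zero _).2 x.ne_zero
  rw [hy]
  field_simp

/-- a `p`-th power in `Kh` which is a unit is a `p`-th power in `Khˣ`. -/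
theorem Pow.mem_range_iff {p : ℕ} (u : Khˣ) :
    u ∈ (powMonoidHom p : Khˣ →* Khˣ).range ↔ ∃ y : Kh, y ^ p = (u : Kh) := by
  constructor
  · rintro ⟨y, rfl⟩
    exact ⟨y, by simp⟩
  · rintro ⟨y, hy⟩
    rcases eq_or_ne y 0 with rfl | hy0
    · have hp : p = 0 := by
        by_contra hp
        rw [zero_pow hp] at hy
        exact u.ne_zero hy.symm
      subst hp
      exact ⟨1, Units.ext (by simpa using hy)⟩
    · exact ⟨Units.mk0 y hy0, Units.ext (by simpa using hy)⟩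

/-- AD-3 (file Pow.lean). `Kˣ / locPow ≃ Khˣ / p`. -/
theorem index_locPow (E : DenseExt v Kh) {p : ℕ} (hH : HenselPow E p) :
    (locPow K p v).index = ((powMonoidHom p : Khˣ →* Khˣ).range).index := by
  set R : Subgroup Khˣ := (powMonoidHom p : Khˣ →* Khˣ).range with hR
  let f : Kˣ →* Khˣ := Units.map (algebraMap K Kh : K →* Kh)
  let g : Kˣ →* Khˣ ⧸ R := (QuotientGroup.mk' R).comp f
  have hker : g.ker = locPow K p v := by
    ext x
    rw [MonoidHom.mem_ker, MonoidHom.comp_apply, QuotientGroup.mk'_apply,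
      QuotientGroup.eq_one_iff, hR, Pow.mem_range_iff, mem_locPow_iff E hH]
    rfl
  have hsurj : Function.Surjective g := by
    intro q
    obtain ⟨ξ, rfl⟩ := QuotientGroup.mk'_surjective R q
    obtain ⟨x, y, hxy⟩ := exists_mul_pow_eq E hH (ξ : Kh) ξ.ne_zero
    refine ⟨x, ?_⟩
    rw [MonoidHom.comp_apply, QuotientGroup.mk'_apply, QuotientGroup.mk'_apply,
      QuotientGroup.eq, hR, Pow.mem_range_iff]
    refine ⟨y, ?_⟩
    have hxF : algebraMap K Kh (x : K) ≠ 0 := (map_ne_zero _).2 x.ne_zero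
    have : (((f x)⁻¹ * ξ : Khˣ) : Kh) = (algebraMap K Kh (x : K))⁻¹ * (ξ : Kh) := by
      simp [f]
    rw [this, hxy]
    field_simp
  rw [← hker, Subgroup.index_ker, MonoidHom.range_eq_top.2 hsurj, Subgroup.index_eq_card]
  exact Nat.card_congr (Subgroup.topEquiv.toEquiv)

end Fermat.Agent.S55.NIT.Adapt
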